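import Mathlib
import Fermat.Agent.MU.Lib.RedTr.Defs

section MergeWrap_Lib_RedTr_Basic -- from Lib/RedTr/Basic.lean

set_option autoImplicit false
set_option linter.style.haveILetI false
set_option linter.unusedSectionVars false

noncomputable section

open AlgebraicCurve Fermat.Agent.RR Fermat.Agent.Deuring Fermat.Agent.FF

namespace Fermat.Agent.RedTr

section General

variable {K E F : Type*} [Field K] [Field E] [Field F] [Algebra K E] [Algebra K F]

/-- a Riemann-Roch field has principal divisors. -/
theorem hasPD (h : IsRRField K F) : HasPrincipalDivisors K F := ⟨h.principal⟩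

variable (hE : IsRRField K E) (hF : IsRRField K F) (φ : E →ₐ[K] F)
  (hφ : φ.toRingHom.IsIntegral)

/-- the pull-back of the pole divisor is the pole divisor of the image. -/
theorem pullbackAlong_poleDiv [HasPrincipalDivisors K F] (y : E) :
    Divisor.pullbackAlong φ hφ (poleDiv hE y) = poleDiv hF (φ y) := by
  ext w
  rw [Divisor.pullbackAlong_apply, poleDiv_apply, poleDiv_apply, Place.ord_restrictAlong φ hφ]
  have he : (0 : ℤ) ≤ (Place.ramificationIndexAlong φ w : ℤ) := Int.natCast_nonneg _
  rw [mul_max_of_nonneg _ _ he, mul_zero, mul_neg]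

/-- the pull-back of a principal divisor is the principal divisor of the image. -/
theorem pullbackAlong_divOf [HasPrincipalDivisors K F] (y : E) :
    Divisor.pullbackAlong φ hφ (divOf hE y) = divOf hF (φ y) := by
  ext w
  rw [Divisor.pullbackAlong_apply, divOf_apply, divOf_apply, Place.ord_restrictAlong φ hφ]

/-- the degree of the pole divisor is multiplied by the degree of the extension. -/
theorem degree_poleDiv_map [HasPrincipalDivisors K F] (hFI : FundamentalIdentityAlong K φ hφ)
    (y : E) :
    Divisor.degree (poleDiv hF (φ y)) = (finrankAlong K φ : ℤ) * Divisor.degree (poleDiv hE y) := by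
  rw [← pullbackAlong_poleDiv hE hF φ hφ, Divisor.degree_pullbackAlong φ hφ hFI]

include hF in
/-- all inertia degrees are `1`. -/
theorem inertiaDegAlong_eq_one (w : Place K F) : w.inertiaDegAlong φ hφ = 1 := by
  letI := algebraAlong φ
  haveI := isScalarTower_along φ
  haveI := isIntegral_along φ hφ
  have h1 := w.deg_restrict_mul_inertiaDeg (F := E)
  rw [hF.deg_one] at h1
  exact Nat.eq_one_of_mul_eq_one_left h1

include hE hF in
/-- the fundamental identity, in the form `∑ e = n`. -/
theorem sum_ramificationIndexAlong [HasPrincipalDivisors K F]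
    (hFI : FundamentalIdentityAlong K φ hφ) (v : Place K E) :
    ∑ w ∈ Place.fiberAlong φ hφ v, (w.ramificationIndexAlong φ : ℤ) = (finrankAlong K φ : ℤ) := by
  letI := algebraAlong φ
  haveI := isScalarTower_along φ
  haveI := isIntegral_along φ hφ
  haveI : FundamentalIdentity K E F := hFI
  have h := FundamentalIdentity.sum_ramificationIndex_mul_deg (K := K) (F := E) (F' := F) v
  rw [hE.deg_one, Nat.cast_one, mul_one] at h
  have h2 : (finrankAlong K φ : ℤ) = (Module.finrank E F : ℤ) := rfl
  rw [h2, ← h]
  refine Finset.sum_congr rfl fun w _ => ?_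
  rw [hF.deg_one, Nat.cast_one, mul_one]
  rfl

include hE hF in
/-- `π_* π^* = n`. -/
theorem pushforwardAlong_pullbackAlong [HasPrincipalDivisors K F]
    (hFI : FundamentalIdentityAlong K φ hφ) (D : Divisor K E) :
    Divisor.pushforwardAlong φ hφ (Divisor.pullbackAlong φ hφ D) = finrankAlong K φ • D := by
  induction D using Finsupp.induction with
  | zero => simp
  | single_add v n D _ _ ih =>
    rw [map_add, map_add, ih, smul_add]
    congr 1
    rw [Divisor.pullbackAlong_single, map_sum]
    have h1 : ∀ w ∈ Place.fiberAlong φ hφ v,
        Divisor.pushforwardAlong φ hφ (Finsupp.single w (n * (w.ramificationIndexAlong φ : ℤ)))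
          = Finsupp.single v (n * (w.ramificationIndexAlong φ : ℤ)) := by
      intro w hw
      rw [Divisor.pushforwardAlong_single, inertiaDegAlong_eq_one hF φ hφ w,
        Place.mem_fiberAlong.mp hw, Nat.cast_one, mul_one]
    rw [Finset.sum_congr rfl h1, ← Finsupp.single_finsetSum, ← Finset.mul_sum,
      sum_ramificationIndexAlong hE hF φ hφ hFI v, Finsupp.smul_single, nsmul_eq_mul, mul_comm]

include hE hF in
/-- every place of `E` is the restriction of a place of `F`. -/
theorem exists_restrictAlong_eq [HasPrincipalDivisors K F]
    (hFI : FundamentalIdentityAlong K φ hφ) (hfin : FiniteAlong K φ) (v : Place K E) :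
    ∃ w : Place K F, w.restrictAlong φ hφ = v := by
  by_contra hcon
  have hempty : Place.fiberAlong φ hφ v = ∅ := by
    rw [Finset.eq_empty_iff_forall_notMem]
    intro w hw
    exact hcon ⟨w, Place.mem_fiberAlong.mp hw⟩
  have h := sum_ramificationIndexAlong hE hF φ hφ hFI v
  rw [hempty, Finset.sum_empty] at h
  have hpos : 0 < finrankAlong K φ := by
    letI := algebraAlong φ
    haveI : Module.Finite E F := hfin
    exact Module.finrank_pos
  have : (0 : ℤ) < (finrankAlong K φ : ℤ) := by exact_mod_cast hpos
  omega

include hφ in
/-- the ramification index is positive. -/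
theorem ramificationIndexAlong_pos (w : Place K F) : 0 < w.ramificationIndexAlong φ := by
  letI := algebraAlong φ
  haveI := isScalarTower_along φ
  haveI := isIntegral_along φ hφ
  exact Place.ramificationIndex_pos (F := E) w

end General

end Fermat.Agent.RedTr
end
end MergeWrap_Lib_RedTr_Basic
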