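import Mathlib
import Fermat.Agent.MU.Lib.RedTr.Basic

section MergeWrap_Lib_RedTr_PushDown -- from Lib/RedTr/PushDown.lean

set_option autoImplicit false
set_option linter.style.haveILetI false

noncomputable section

open AlgebraicCurve Fermat.Agent.RR Fermat.Agent.Deuring Fermat.Agent.FF

namespace Fermat.Agent.RedTr

variable {K E F k Ek Fk : Type*} [Field K] [Field E] [Field F] [Algebra K E] [Algebra K F]
  [Field k] [Field Ek] [Field Fk] [Algebra k Ek] [Algebra k Fk]
  {SE : ValSetup K E k Ek} {SF : ValSetup K F k Fk} {φ : E →ₐ[K] F} {φk : Ek →ₐ[k] Fk}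
  {hφ : φ.toRingHom.IsIntegral} {hφk : φk.toRingHom.IsIntegral}

/-- `πk_* ∘ r_* = rE_* ∘ π_*` (all inertia degrees are `1`). -/
theorem pushDown_comm (hFK : IsRRField K F) (hFk : IsRRField k Fk)
    {r : Place K F → Place k Fk} {rE : Place K E → Place k Ek}
    (hrE : ∀ P' : Place K F, rE (P'.restrictAlong φ hφ) = (r P').restrictAlong φk hφk)
    (B : Divisor K F) :
    Divisor.pushforwardAlong φk hφk (redDiv r B) =
      redDiv rE (Divisor.pushforwardAlong φ hφ B) := by
  induction B using Finsupp.induction with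
  | zero => simp
  | single_add w n B _ _ ih =>
    rw [map_add, map_add, map_add, map_add, ih]
    congr 1
    rw [redDiv_single, Divisor.pushforwardAlong_single, Divisor.pushforwardAlong_single,
      redDiv_single, inertiaDegAlong_eq_one hFK φ hφ w, inertiaDegAlong_eq_one hFk φk hφk (r w),
      hrE]

/-- **Seat P**: a map `rE` of places of `E` compatible with a Deuring reduction `r` of the places
of `F` has the push property. -/
theorem pushDown (C : Compat SE SF φ φk) {r : Place K F → Place k Fk} (hr : IsReduction SF r)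
    [HasPrincipalDivisors K F] [HasPrincipalDivisors k Fk]
    (hFIK : FundamentalIdentityAlong K φ hφ) (hFIk : FundamentalIdentityAlong k φk hφk) :
    PushDown SE φ φk hφ hφk r := by
  intro rE hrE f hf hfinv hf0 Q
  have hd : finrankAlong K φ = finrankAlong k φk := C.finrank_eq
  have hdpos : 0 < finrankAlong K φ := by
    letI := algebraAlong φ
    haveI : Module.Finite E F := C.finite
    exact Module.finrank_pos
  -- `φ f` is a unit of `O_F`
  have hφf : φ f ∈ SF.Ov := (C.mem_iff f).mpr hf
  have hφfinv : (φ f)⁻¹ ∈ SF.Ov := by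
    rw [← map_inv₀]
    exact (C.mem_iff f⁻¹).mpr hfinv
  have hφf0 : φ f ≠ 0 := by
    rwa [Ne, map_eq_zero]
  have h1 : redDiv r (divOf SF.hF (φ f)) = divOf SF.hFk (φk (SE.red f)) := by
    rw [hr.redDiv_divOf_of_unit hφf hφfinv hφf0, C.red_map f hf]
  have h2 : Divisor.pushforwardAlong φk hφk
      (redDiv r (Divisor.pullbackAlong φ hφ (divOf SE.hF f)))
      = finrankAlong k φk • divOf SE.hFk (SE.red f) := by
    rw [pullbackAlong_divOf SE.hF SF.hF φ hφ f, h1,
      ← pullbackAlong_divOf SE.hFk SF.hFk φk hφk,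
      pushforwardAlong_pullbackAlong SE.hFk SF.hFk φk hφk hFIk]
  have h3 : redDiv rE (finrankAlong K φ • divOf SE.hF f)
      = finrankAlong k φk • divOf SE.hFk (SE.red f) := by
    rw [← pushforwardAlong_pullbackAlong SE.hF SF.hF φ hφ hFIK,
      ← pushDown_comm SF.hF SF.hFk hrE, h2]
  have h4 := congrArg (fun D : Divisor k Ek => D Q) h3
  simp only [map_nsmul, Finsupp.smul_apply, nsmul_eq_mul] at h4
  rw [← hd] at h4
  have hne : ((finrankAlong K φ : ℕ) : ℤ) ≠ 0 := by exact_mod_cast hdpos.ne'
  have h5 := mul_left_cancel₀ hne h4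
  rw [redDiv_apply, divOf_apply] at h5
  exact h5

end Fermat.Agent.RedTr
end
end MergeWrap_Lib_RedTr_PushDown
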